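/-
S41 / unit U7 (non-Eisenstein witness) — leaf GROUP (helper45).

`exists_fixedPointFree_primePow`: a group acting linearly and irreducibly on an `𝔽_p`-plane
contains an element of prime-power order (modulo the kernel of the action) without nonzero
fixed vector.

Proof (by contradiction).  Assume every element of prime-power order has a nonzero fixed vector.
* An element of determinant one with a nonzero fixed vector is unipotent, so its `p`-th power
  acts trivially.  Hence the image of `S = ker det` is a `p`-group; it fixes a nonzero vector,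
  the fixed space of `S` is stable (`S` is normal), so `S` acts trivially.
* Hence commutators act trivially: the image of the group is abelian, the fixed space of any
  element is stable, so every element of prime order acts trivially, so the action is trivial,
  and every line is stable: contradiction.
-/
import Mathlib

set_option autoImplicit false

namespace Fermat.Agent.S41.H45

section Order

/-- If every element of a power-closed class `P` whose image has order dividing a prime has
image of order dividing `m`, then every prime factor of the order of the image of an element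
of `P` divides `m`. -/
theorem prime_dvd_of_forall_pow {G Q : Type*} [Group G] [Group Q] [Finite Q] (ρ : G →* Q)
    (P : G → Prop) (hpow : ∀ g, P g → ∀ n : ℕ, P (g ^ n)) (m : ℕ)
    (hm : ∀ g, P g → ∀ r : ℕ, r.Prime → ρ g ^ r = 1 → ρ g ^ m = 1)
    (g : G) (hg : P g) (r : ℕ) (hr : r.Prime) (hdvd : r ∣ orderOf (ρ g)) : r ∣ m := by
  obtain ⟨k, hk⟩ := hdvd
  have hn : 0 < orderOf (ρ g) := orderOf_pos (ρ g)
  have hk0 : k ≠ 0 := by
    rintro rfl
    rw [mul_zero] at hk
    omega
  have hord : orderOf (ρ (g ^ k)) = r := by
    rw [map_pow, orderOf_pow_of_dvd hk0 ⟨r, by rw [hk, mul_comm]⟩, hk]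
    exact Nat.mul_div_cancel _ (Nat.pos_of_ne_zero hk0)
  have h1 : ρ (g ^ k) ^ r = 1 := by
    rw [← hord]
    exact pow_orderOf_eq_one _
  have h2 := hm (g ^ k) (hpow g hg k) r hr h1
  rw [← hord]
  exact orderOf_dvd_of_pow_eq_one h2

end Order

section Plane

variable {p : ℕ} [Fact p.Prime] {V : Type*} [AddCommGroup V] [Module (ZMod p) V]

/-- A module over `ZMod p` with `p ^ 2` elements has rank two. -/
theorem finrank_eq_two_of_natCard (hV : Nat.card V = p ^ 2) :
    Module.finrank (ZMod p) V = 2 := by
  have hp : p.Prime := Fact.out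
  have : Finite V := Nat.finite_of_card_ne_zero (by rw [hV]; exact pow_ne_zero _ hp.ne_zero)
  have h := Module.natCard_eq_pow_finrank (K := ZMod p) (V := V)
  rw [hV, Nat.card_zmod] at h
  exact (Nat.pow_right_injective hp.two_le h).symm

/-- An endomorphism of an `𝔽_p`-plane of determinant one with a nonzero fixed vector is
unipotent: its `p`-th power is the identity. -/
theorem pow_prime_apply_of_det_eq_one (hV : Nat.card V = p ^ 2) (f : V →ₗ[ZMod p] V)
    (hdet : LinearMap.det f = 1) {v : V} (hv : v ≠ 0) (hfv : f v = v) (x : V) :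
    (f ^ p) x = x := by
  have hp : p.Prime := Fact.out
  have : Finite V := Nat.finite_of_card_ne_zero (by rw [hV]; exact pow_ne_zero _ hp.ne_zero)
  have hfin := finrank_eq_two_of_natCard hV
  -- a second basis vector
  obtain ⟨w, hw⟩ : ∃ w : V, w ∉ Submodule.span (ZMod p) {v} := by
    by_contra hcon
    push Not at hcon
    have htop : Submodule.span (ZMod p) {v} = ⊤ := by
      rw [eq_top_iff]
      intro y _
      exact hcon y
    have h1 := finrank_span_singleton (K := ZMod p) hv
    rw [htop, finrank_top, hfin] at h1
    omega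
  have hli : LinearIndependent (ZMod p) ![v, w] := by
    rw [linearIndependent_fin2]
    refine ⟨?_, ?_⟩
    · intro h0
      apply hw
      have : w = 0 := h0
      rw [this]
      exact Submodule.zero_mem _
    · intro a ha
      have ha' : a • w = v := ha
      apply hw
      have ha0 : a ≠ 0 := by
        rintro rfl
        rw [zero_smul] at ha'
        exact hv ha'.symm
      have : w = a⁻¹ • v := by
        rw [← ha', smul_smul, inv_mul_cancel₀ ha0, one_smul]
      rw [this]
      exact Submodule.smul_mem _ _ (Submodule.mem_span_singleton_self v)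
  let b : Module.Basis (Fin 2) (ZMod p) V :=
    basisOfLinearIndependentOfCardEqFinrank hli (by rw [hfin]; rfl)
  have hb : ⇑b = ![v, w] := coe_basisOfLinearIndependentOfCardEqFinrank hli _
  have hb0 : b 0 = v := by rw [hb]; rfl
  have hb1 : b 1 = w := by rw [hb]; rfl
  have hM := LinearMap.det_toMatrix b f
  rw [hdet, Matrix.det_fin_two] at hM
  have h00 : LinearMap.toMatrix b b f 0 0 = 1 := by
    rw [LinearMap.toMatrix_apply, hb0, hfv, ← hb0, Module.Basis.repr_self]
    simp
  have h10 : LinearMap.toMatrix b b f 1 0 = 0 := by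
    rw [LinearMap.toMatrix_apply, hb0, hfv, ← hb0, Module.Basis.repr_self]
    simp
  rw [h00, h10, mul_zero, sub_zero, one_mul] at hM
  have hfw : f w = LinearMap.toMatrix b b f 0 1 • v + w := by
    have h := b.sum_repr (f w)
    rw [Fin.sum_univ_two, hb0, hb1] at h
    have e0 : b.repr (f w) 0 = LinearMap.toMatrix b b f 0 1 := by
      rw [LinearMap.toMatrix_apply, hb1]
    have e1 : b.repr (f w) 1 = 1 := by
      rw [← hM, LinearMap.toMatrix_apply, hb1]
    rw [e0, e1, one_smul] at h
    exact h.symm
  set c := LinearMap.toMatrix b b f 0 1 with hc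
  have hpv : ∀ n : ℕ, (f ^ n) v = v := by
    intro n
    rw [Module.End.pow_apply]
    exact Function.iterate_fixed hfv n
  have hpw : ∀ n : ℕ, (f ^ n) w = ((n : ZMod p) * c) • v + w := by
    intro n
    induction n with
    | zero => simp
    | succ n ih =>
      rw [pow_succ', Module.End.mul_apply, ih, map_add, map_smul, hfv, hfw, ← add_assoc,
        ← add_smul]
      congr 2
      push_cast
      ring
  have hpw' : (f ^ p) w = w := by
    rw [hpw p, ZMod.natCast_self, zero_mul, zero_smul, zero_add]
  have hext : f ^ p = LinearMap.id := by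
    apply b.ext
    intro i
    fin_cases i
    · change (f ^ p) (b 0) = b 0
      rw [hb0]
      exact hpv p
    · change (f ^ p) (b 1) = b 1
      rw [hb1]
      exact hpw'
  rw [hext]
  rfl

end Plane

/-- **(GROUP)** A group acting linearly and irreducibly on an `𝔽_p`-plane contains an element of
prime-power order (modulo the kernel of the action) without nonzero fixed vector. -/
theorem exists_fixedPointFree_primePow {p : ℕ} [Fact p.Prime] {V : Type*} [AddCommGroup V]
    [Module (ZMod p) V] (hV : Nat.card V = p ^ 2) {G : Type*} [Group G] [DistribMulAction G V]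
    [SMulCommClass G (ZMod p) V]
    (hirr : ∀ N : Submodule (ZMod p) V, (∀ g : G, ∀ x ∈ N, g • x ∈ N) → N = ⊥ ∨ N = ⊤) :
    ∃ g : G, (∃ r a : ℕ, r.Prime ∧ ∀ v : V, g ^ (r ^ a) • v = v) ∧ ∀ v : V, g • v = v → v = 0 := by
  have hp : p.Prime := Fact.out
  have : Finite V := Nat.finite_of_card_ne_zero (by rw [hV]; exact pow_ne_zero _ hp.ne_zero)
  have hfin := finrank_eq_two_of_natCard hV
  by_contra hcon
  -- (H): every element of prime-power order has a nonzero fixed vector
  have H : ∀ g : G, (∃ r a : ℕ, r.Prime ∧ ∀ v : V, g ^ (r ^ a) • v = v) →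
      ∃ v : V, g • v = v ∧ v ≠ 0 := by
    intro g hg
    by_contra hno
    apply hcon
    refine ⟨g, hg, ?_⟩
    intro v hv
    by_contra hv0
    exact hno ⟨v, hv, hv0⟩
  -- the permutation representation and the determinant character
  let ρ : G →* Equiv.Perm V := MulAction.toPermHom G V
  have hρ : ∀ (g : G) (v : V), ρ g v = g • v := fun g v => rfl
  have hρ1 : ∀ g : G, ρ g = 1 ↔ ∀ v : V, g • v = v := by
    intro g
    constructor
    · intro h v
      rw [← hρ, h]
      rfl
    · intro h
      ext v
      rw [hρ, h]
      rfl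
  let L : G →* Module.End (ZMod p) V := DistribMulAction.toModuleEnd (ZMod p) V
  have hL : ∀ (g : G) (v : V), L g v = g • v := fun g v => rfl
  let d : G →* ZMod p := (LinearMap.det (M := V) (A := ZMod p)).comp L
  have hdinv : ∀ g : G, d g⁻¹ * d g = 1 := by
    intro g
    rw [← map_mul, inv_mul_cancel, map_one]
  -- Step A: elements of `ker d` have `p`-power order on `V`
  have hA : ∀ s : G, d s = 1 → ∀ r : ℕ, r.Prime → r ∣ orderOf (ρ s) → r ∣ p := by
    intro s hs r hr hdvd
    refine prime_dvd_of_forall_pow ρ (fun s => d s = 1) ?_ p ?_ s hs r hr hdvd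
    · intro g hg n
      have hg' : d g = 1 := hg
      show d (g ^ n) = 1
      rw [map_pow, hg', one_pow]
    · intro g hg r hr hgr
      obtain ⟨v, hgv, hv0⟩ := H g ⟨r, 1, hr, by
        intro v
        rw [pow_one]
        have := (hρ1 (g ^ r)).1 (by rw [map_pow]; exact hgr)
        exact this v⟩
      rw [← map_pow, hρ1]
      intro x
      have := pow_prime_apply_of_det_eq_one hV (L g) hg hv0 (by rw [hL]; exact hgv) x
      rw [← map_pow, hL] at this
      exact this
  have hA' : ∀ s : G, d s = 1 → ∃ k : ℕ, ρ s ^ p ^ k = 1 := by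
    intro s hs
    have hpos : orderOf (ρ s) ≠ 0 := (orderOf_pos (ρ s)).ne'
    have := Nat.eq_prime_pow_of_unique_prime_dvd hpos (p := p) (fun {r} hr hdvd =>
      (Nat.prime_dvd_prime_iff_eq hr hp).1 (hA s hs r hr hdvd))
    refine ⟨(orderOf (ρ s)).primeFactorsList.length, ?_⟩
    rw [← this]
    exact pow_orderOf_eq_one _
  -- the image of `ker d` is a `p`-group: it fixes a nonzero vector
  let Sbar : Subgroup (Equiv.Perm V) := Subgroup.map ρ d.ker
  have hPG : IsPGroup p Sbar := by
    rintro ⟨σ, hσ⟩
    obtain ⟨s, hs, rfl⟩ := hσ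
    obtain ⟨k, hk⟩ := hA' s (MonoidHom.mem_ker.1 hs)
    refine ⟨k, ?_⟩
    apply Subtype.ext
    rw [SubmonoidClass.coe_pow]
    exact hk
  have hpV : p ∣ Nat.card V := by
    rw [hV]
    exact dvd_pow_self p two_ne_zero
  have h0fix : (0 : V) ∈ MulAction.fixedPoints Sbar V := by
    rintro ⟨σ, hσ⟩
    obtain ⟨s, _, rfl⟩ := hσ
    change ρ s 0 = 0
    rw [hρ, smul_zero]
  obtain ⟨b, hbfix, hb0⟩ := hPG.exists_fixed_point_of_prime_dvd_card_of_fixed_point V hpV h0fix
  have hbS : ∀ s : G, d s = 1 → s • b = b := by
    intro s hs
    have := hbfix ⟨ρ s, s, MonoidHom.mem_ker.2 hs, rfl⟩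
    exact this
  -- Step B: the fixed space of `ker d` is stable, hence everything
  let N : Submodule (ZMod p) V :=
    { carrier := {v | ∀ s : G, d s = 1 → s • v = v}
      add_mem' := by
        intro x y hx hy s hs
        rw [smul_add, hx s hs, hy s hs]
      zero_mem' := by
        intro s _
        rw [smul_zero]
      smul_mem' := by
        intro c x hx s hs
        rw [smul_comm, hx s hs] }
  have hNmem : ∀ v : V, v ∈ N ↔ ∀ s : G, d s = 1 → s • v = v := fun v => Iff.rfl
  have hNstab : ∀ g : G, ∀ x ∈ N, g • x ∈ N := by
    intro g x hx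
    rw [hNmem] at hx ⊢
    intro s hs
    have h1 : d (g⁻¹ * s * g) = 1 := by
      rw [map_mul, map_mul, hs, mul_one, hdinv]
    have h2 := hx _ h1
    calc s • g • x = g • (g⁻¹ * s * g) • x := by
          rw [smul_smul, smul_smul]
          congr 1
          group
      _ = g • x := by rw [h2]
  have hNtop : N = ⊤ := by
    rcases hirr N hNstab with h | h
    · exfalso
      apply hb0
      have hbN : b ∈ N := (hNmem b).2 hbS
      rw [h, Submodule.mem_bot] at hbN
      exact hbN.symm
    · exact h
  have hS : ∀ s : G, d s = 1 → ∀ v : V, s • v = v := by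
    intro s hs v
    have hv : v ∈ N := by rw [hNtop]; exact Submodule.mem_top
    exact (hNmem v).1 hv s hs
  -- Step C: the action is commutative
  have hcomm : ∀ (g h : G) (v : V), g • h • v = h • g • v := by
    intro g h v
    have h1 : d ((h * g)⁻¹ * (g * h)) = 1 := by
      rw [map_mul, map_mul, mul_comm (d g) (d h), ← map_mul d h g, hdinv]
    have h2 := hS _ h1 v
    calc g • h • v = (h * g) • ((h * g)⁻¹ * (g * h)) • v := by
          rw [smul_smul, smul_smul]
          congr 1
          group
      _ = h • g • v := by rw [h2, mul_smul]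
  -- Step D: every element acts trivially
  have hD : ∀ g : G, ∀ r : ℕ, r.Prime → r ∣ orderOf (ρ g) → r ∣ 1 := by
    intro g r hr hdvd
    refine prime_dvd_of_forall_pow ρ (fun _ => True) (fun _ _ _ => trivial) 1 ?_ g trivial r hr
      hdvd
    intro g _ r hr hgr
    obtain ⟨v, hgv, hv0⟩ := H g ⟨r, 1, hr, by
      intro v
      rw [pow_one]
      have := (hρ1 (g ^ r)).1 (by rw [map_pow]; exact hgr)
      exact this v⟩
    let Ng : Submodule (ZMod p) V :=
      { carrier := {x | g • x = x}
        add_mem' := by
          intro x y hx hy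
          change g • (x + y) = x + y
          rw [smul_add, hx, hy]
        zero_mem' := smul_zero g
        smul_mem' := by
          intro c x hx
          change g • c • x = c • x
          rw [smul_comm, hx] }
    have hNgmem : ∀ x : V, x ∈ Ng ↔ g • x = x := fun x => Iff.rfl
    have hNgstab : ∀ h : G, ∀ x ∈ Ng, h • x ∈ Ng := by
      intro h x hx
      rw [hNgmem] at hx ⊢
      rw [hcomm, hx]
    have hNgtop : Ng = ⊤ := by
      rcases hirr Ng hNgstab with h | h
      · exfalso
        apply hv0
        have hvN : v ∈ Ng := (hNgmem v).2 hgv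
        rw [h, Submodule.mem_bot] at hvN
        exact hvN
      · exact h
    rw [pow_one, hρ1]
    intro x
    have hx : x ∈ Ng := by rw [hNgtop]; exact Submodule.mem_top
    exact (hNgmem x).1 hx
  have htriv : ∀ (g : G) (v : V), g • v = v := by
    intro g
    rw [← hρ1]
    by_contra hne
    have hne' : orderOf (ρ g) ≠ 1 := by
      rw [Ne, orderOf_eq_one_iff]
      exact hne
    obtain ⟨r, hr, hdvd⟩ := Nat.exists_prime_and_dvd hne'
    exact hr.one_lt.ne' (Nat.dvd_one.1 (hD g r hr hdvd))
  -- Step E: every line is stable
  obtain ⟨v, hv0⟩ : ∃ v : V, v ≠ 0 := by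
    by_contra hcon2
    push Not at hcon2
    have : Module.finrank (ZMod p) V = 0 := by
      have : Subsingleton V := ⟨fun x y => by rw [hcon2 x, hcon2 y]⟩
      exact Module.finrank_zero_of_subsingleton
    omega
  rcases hirr (Submodule.span (ZMod p) {v}) (fun g x hx => by rw [htriv]; exact hx) with h | h
  · apply hv0
    have := Submodule.mem_span_singleton_self (R := ZMod p) v
    rw [h, Submodule.mem_bot] at this
    exact this
  · have h1 := finrank_span_singleton (K := ZMod p) hv0
    rw [h, finrank_top, hfin] at h1
    omega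

end Fermat.Agent.S41.H45
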