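/-
S41 / PAIR (S0) — the two combinatorial lemmas PERIOD and AUG (helper45), Mathlib only.

* `exists_potential_of_orbit_sums` (PERIOD): for `g` acting on a finite set `X` and `f : X → A`
  whose sums along all closed `g`-orbits vanish, `f = n ∘ g - n` for some `n : X → A`.
* `exists_decomp_of_sum_eq_zero` (AUG): if `s, t` generate a group acting transitively on a
  finite set `X`, every `f : X → A` of total sum zero is `(Q ∘ s - Q) + (h ∘ t - h)`.

The shapes of the orbit sums are those of the landed `S16.H97.IsCoc.pow` / `sum_cocOf_orbit`.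
-/
import Mathlib

set_option autoImplicit false

namespace Fermat.Agent.S41.H45

section Period

variable {G X A : Type*} [Group G] [MulAction G X] [AddCommGroup A]

/-- An element of a group acting on a finite set has a positive power acting trivially. -/
theorem exists_pow_smul_eq_self [Finite X] (g : G) : ∃ N : ℕ, 0 < N ∧ ∀ x : X, g ^ N • x = x := by
  refine ⟨orderOf (MulAction.toPermHom G X g), orderOf_pos _, ?_⟩
  intro x
  have h := pow_orderOf_eq_one (MulAction.toPermHom G X g)
  rw [← map_pow] at h
  have h2 := congrArg (fun σ : Equiv.Perm X => σ x) h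
  exact h2

/-- Partial sums along an orbit only depend on the end point, when closed-orbit sums vanish. -/
theorem sum_range_eq_of_pow_smul_eq (g : G) (f : X → A)
    (h : ∀ (x : X) (k : ℕ), g ^ k • x = x → ∑ i ∈ Finset.range k, f (g ^ i • x) = 0)
    (y : X) (a b : ℕ) (hab : g ^ a • y = g ^ b • y) :
    ∑ i ∈ Finset.range a, f (g ^ i • y) = ∑ i ∈ Finset.range b, f (g ^ i • y) := by
  have key : ∀ a w : ℕ, g ^ a • y = g ^ (a + w) • y →
      ∑ i ∈ Finset.range a, f (g ^ i • y) = ∑ i ∈ Finset.range (a + w), f (g ^ i • y) := by
    intro a w haw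
    have hw : g ^ w • (g ^ a • y) = g ^ a • y := by
      rw [smul_smul, ← pow_add, add_comm w a]
      exact haw.symm
    have h0 := h (g ^ a • y) w hw
    rw [Finset.sum_range_add]
    have h1 : ∑ i ∈ Finset.range w, f (g ^ (a + i) • y) = 0 := by
      rw [← h0]
      refine Finset.sum_congr rfl fun i _ => ?_
      rw [smul_smul, ← pow_add, add_comm i a]
    rw [h1, add_zero]
  rcases le_total a b with hle | hle
  · obtain ⟨w, rfl⟩ := Nat.exists_eq_add_of_le hle
    exact key a w hab
  · obtain ⟨w, rfl⟩ := Nat.exists_eq_add_of_le hle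
    exact (key b w hab.symm).symm

/-- **(PERIOD)** If the sums of `f` along all closed `g`-orbits vanish, `f` is a `g`-coboundary:
`f x = n (g • x) - n x`. -/
theorem exists_potential_of_orbit_sums [Finite X] (g : G) (f : X → A)
    (h : ∀ (x : X) (k : ℕ), g ^ k • x = x → ∑ i ∈ Finset.range k, f (g ^ i • x) = 0) :
    ∃ n : X → A, ∀ x, f x = n (g • x) - n x := by
  obtain ⟨N, hN, hNx⟩ := exists_pow_smul_eq_self (X := X) g
  -- the orbit relation, with natural exponents
  let s : Setoid X :=
    { r := fun x y => ∃ k : ℕ, g ^ k • x = y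
      iseqv :=
        { refl := fun x => ⟨0, by rw [pow_zero, one_smul]⟩
          symm := by
            rintro x y ⟨k, rfl⟩
            refine ⟨k * (N - 1), ?_⟩
            rw [smul_smul, ← pow_add]
            have : k * (N - 1) + k = N * k := by
              obtain ⟨M, rfl⟩ : ∃ M, N = M + 1 := ⟨N - 1, by omega⟩
              rw [Nat.add_sub_cancel]
              ring
            rw [this, pow_mul]
            have hk : ∀ j : ℕ, (g ^ N) ^ j • x = x := by
              intro j
              induction j with
              | zero => rw [pow_zero, one_smul]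
              | succ j ih => rw [pow_succ, mul_smul, hNx, ih]
            exact hk k
          trans := by
            rintro x y z ⟨k, rfl⟩ ⟨l, rfl⟩
            exact ⟨l + k, by rw [pow_add, mul_smul]⟩ } }
  let rep : X → X := fun x => (Quotient.mk s x).out
  have hrep : ∀ x, ∃ k : ℕ, g ^ k • rep x = x := fun x => Quotient.mk_out (s := s) x
  have hrepg : ∀ x, rep (g • x) = rep x := by
    intro x
    have : Quotient.mk s (g • x) = Quotient.mk s x :=
      Quotient.sound (s := s) (Setoid.symm (⟨1, by rw [pow_one]⟩ : s.r x (g • x)))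
    change (Quotient.mk s (g • x)).out = (Quotient.mk s x).out
    rw [this]
  let kx : X → ℕ := fun x => Classical.choose (hrep x)
  have hkx : ∀ x, g ^ kx x • rep x = x := fun x => Classical.choose_spec (hrep x)
  refine ⟨fun x => ∑ i ∈ Finset.range (kx x), f (g ^ i • rep x), ?_⟩
  intro x
  have h1 : g ^ kx (g • x) • rep x = g ^ (kx x + 1) • rep x := by
    have := hkx (g • x)
    rw [hrepg] at this
    rw [this, pow_succ', mul_smul, hkx]
  have h2 := sum_range_eq_of_pow_smul_eq g f h (rep x) _ _ h1
  change f x = ∑ i ∈ Finset.range (kx (g • x)), f (g ^ i • rep (g • x)) -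
    ∑ i ∈ Finset.range (kx x), f (g ^ i • rep x)
  rw [hrepg, h2, Finset.sum_range_succ, hkx, add_sub_cancel_left]

/-- Converse of (PERIOD): closed-orbit sums of a coboundary vanish. -/
theorem sum_range_eq_zero_of_potential (g : G) (n : X → A) (x : X) (k : ℕ)
    (hk : g ^ k • x = x) : ∑ i ∈ Finset.range k, (n (g • g ^ i • x) - n (g ^ i • x)) = 0 := by
  have h : ∀ k : ℕ, ∑ i ∈ Finset.range k, (n (g • g ^ i • x) - n (g ^ i • x)) =
      n (g ^ k • x) - n x := by
    intro k
    induction k with
    | zero => simp
    | succ k ih =>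
      rw [Finset.sum_range_succ, ih, pow_succ', mul_smul]
      abel
  rw [h, hk, sub_self]

end Period

section Aug

variable {G X A : Type*} [Group G] [MulAction G X] [AddCommGroup A]

/-- The subgroup of functions of the form `(Q ∘ s - Q) + (h ∘ t - h)`. -/
def augSubgroup (s t : G) (X A : Type*) [MulAction G X] [AddCommGroup A] : AddSubgroup (X → A) where
  carrier := {F | ∃ Q h : X → A, ∀ x, F x = (Q (s • x) - Q x) + (h (t • x) - h x)}
  zero_mem' := ⟨0, 0, fun x => by simp⟩
  add_mem' := by
    rintro F F' ⟨Q, h, hF⟩ ⟨Q', h', hF'⟩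
    refine ⟨Q + Q', h + h', fun x => ?_⟩
    rw [Pi.add_apply, hF, hF']
    simp only [Pi.add_apply]
    abel
  neg_mem' := by
    rintro F ⟨Q, h, hF⟩
    refine ⟨-Q, -h, fun x => ?_⟩
    rw [Pi.neg_apply, hF]
    simp only [Pi.neg_apply]
    abel

theorem mem_augSubgroup (s t : G) (F : X → A) :
    F ∈ augSubgroup s t X A ↔
      ∃ Q h : X → A, ∀ x, F x = (Q (s • x) - Q x) + (h (t • x) - h x) := Iff.rfl

open Classical in
/-- Differences of point masses along the action of the group generated by `s`, `t` lie in the
subgroup of `(s, t)`-coboundaries. -/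
theorem single_sub_single_mem (s t : G) (hst : Subgroup.closure ({s, t} : Set G) = ⊤)
    (g : G) (x : X) (a : A) :
    (Pi.single x a - Pi.single (g • x) a : X → A) ∈ augSubgroup s t X A := by
  have hg : g ∈ Subgroup.closure ({s, t} : Set G) := by rw [hst]; trivial
  induction hg using Subgroup.closure_induction generalizing x with
  | mem g hg =>
    rcases hg with hg | hg
    · have hg' : g = s := hg
      refine ⟨Pi.single (g • x) a, 0, fun z => ?_⟩
      rw [← hg']
      simp only [Pi.sub_apply, Pi.single_apply, Pi.zero_apply, sub_self, add_zero]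
      by_cases hz : z = x
      · subst hz
        simp
      · have : g • z ≠ g • x := fun hh => hz (MulAction.injective g hh)
        simp [hz, this]
    · have hg' : g = t := hg
      refine ⟨0, Pi.single (g • x) a, fun z => ?_⟩
      rw [← hg']
      simp only [Pi.sub_apply, Pi.single_apply, Pi.zero_apply, sub_self, zero_add]
      by_cases hz : z = x
      · subst hz
        simp
      · have : g • z ≠ g • x := fun hh => hz (MulAction.injective g hh)
        simp [hz, this]
  | one =>
    rw [one_smul, sub_self]
    exact AddSubgroup.zero_mem _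
  | mul g₁ g₂ _ _ h₁ h₂ =>
    have e : (Pi.single x a - Pi.single ((g₁ * g₂) • x) a : X → A) =
        (Pi.single x a - Pi.single (g₂ • x) a) +
          (Pi.single (g₂ • x) a - Pi.single (g₁ • g₂ • x) a) := by
      rw [mul_smul]
      abel
    rw [e]
    exact AddSubgroup.add_mem _ (h₂ x) (h₁ (g₂ • x))
  | inv g _ h₁ =>
    have e : (Pi.single x a - Pi.single (g⁻¹ • x) a : X → A) =
        -(Pi.single (g⁻¹ • x) a - Pi.single (g • g⁻¹ • x) a) := by
      rw [smul_inv_smul]
      abel
    rw [e]
    exact AddSubgroup.neg_mem _ (h₁ (g⁻¹ • x))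

open Classical in
/-- **(AUG)** If `s`, `t` generate a group acting transitively on a finite set `X`, every function
of total sum zero is a sum of an `s`-coboundary and a `t`-coboundary. -/
theorem exists_decomp_of_sum_eq_zero [MulAction.IsPretransitive G X] [Fintype X] (s t : G)
    (hst : Subgroup.closure ({s, t} : Set G) = ⊤) (f : X → A) (hf : ∑ x, f x = 0) :
    ∃ Q h : X → A, ∀ x, f x = (Q (s • x) - Q x) + (h (t • x) - h x) := by
  rw [← mem_augSubgroup]
  rcases isEmpty_or_nonempty X with hX | hX
  · have : f = 0 := funext fun x => (hX.false x).elim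
    rw [this]
    exact AddSubgroup.zero_mem _
  · obtain ⟨x₀⟩ := hX
    have e : f = ∑ x, (Pi.single x (f x) - Pi.single x₀ (f x) : X → A) := by
      funext z
      rw [Finset.sum_apply]
      simp only [Pi.sub_apply, Pi.single_apply, Finset.sum_sub_distrib]
      rw [Finset.sum_ite_eq Finset.univ z f, if_pos (Finset.mem_univ z)]
      by_cases hz : z = x₀
      · simp [hz, hf]
      · simp [hz]
    rw [e]
    refine AddSubgroup.sum_mem _ fun x _ => ?_
    obtain ⟨g, hg⟩ := MulAction.exists_smul_eq G x x₀
    rw [← hg]
    exact single_sub_single_mem s t hst g x (f x)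

end Aug

end Fermat.Agent.S41.H45
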